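import Mathlib

/-!
# Moore graphs of diameter two

The adjacency matrix off the constants satisfies a quadratic equation; the trace of the projection
to one of its two eigenspaces is a natural number, which leaves few degrees.
-/

set_option autoImplicit false

noncomputable section

namespace FA.HoffmanSingleton

open Finset Matrix SimpleGraph

variable {V : Type*} [Fintype V] [DecidableEq V]

/-- The trace of an idempotent matrix is a natural number. -/
theorem exists_trace_eq {E : Matrix V V ℝ} (h : E * E = E) : ∃ m : ℕ, E.trace = m := by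
  have h' : IsIdempotentElem (Matrix.toLin' E) := by
    rw [IsIdempotentElem, Module.End.mul_eq_comp, ← Matrix.toLin'_mul, h]
  have hp : LinearMap.IsProj (LinearMap.range (Matrix.toLin' E)) (Matrix.toLin' E) :=
    ⟨fun x => LinearMap.mem_range_self _ x, fun x hx => by
      obtain ⟨y, rfl⟩ := hx
      exact LinearMap.congr_fun h' y⟩
  exact ⟨_, (Matrix.trace_toLin'_eq E).symm.trans hp.trace⟩

theorem exists_multiplicity (G : SimpleGraph V) [DecidableRel G.Adj] {k : ℕ}
    (hk : 1 ≤ k) (h : G.IsSRGWith (k ^ 2 + 1) k 0 1) :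
    ∃ m : ℕ, 2 * (m : ℝ) * Real.sqrt (4 * k - 3) =
      k ^ 2 * Real.sqrt (4 * k - 3) + ((k : ℝ) ^ 2 - 2 * k) := by
  set A : Matrix V V ℝ := G.adjMatrix ℝ with hA
  set J : Matrix V V ℝ := Matrix.of fun _ _ => 1 with hJ
  set n : ℝ := (k : ℝ) ^ 2 + 1 with hn
  have hcard : (Fintype.card V : ℝ) = n := by rw [h.card]; push_cast; rfl
  have hn0 : n ≠ 0 := by positivity
  have hC : (Gᶜ.adjMatrix ℝ) = J - 1 - A := by
    ext v w
    by_cases hvw : v = w
    · subst hvw; simp [hJ, hA]
    · by_cases ha : G.Adj v w <;> simp [hJ, hA, hvw, ha]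
  have hA2 : A * A = ((k : ℝ) - 1) • (1 : Matrix V V ℝ) - A + J := by
    rw [← pow_two, h.matrix_eq (α := ℝ), hC, zero_smul, one_smul, ← Nat.cast_smul_eq_nsmul ℝ k]
    ext v w
    simp only [Matrix.add_apply, Matrix.sub_apply, Matrix.smul_apply,
      smul_eq_mul, add_zero]
    ring
  have hAJ : A * J = (k : ℝ) • J := by
    ext v w
    simp [Matrix.mul_apply, hA, hJ, ← neighborFinset_eq_filter, h.regular v]
  have hJA : J * A = (k : ℝ) • J := by
    ext v w
    simp [Matrix.mul_apply, hA, hJ, G.adj_comm _ w, ← neighborFinset_eq_filter, h.regular w]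
  have hJJ : J * J = n • J := by
    ext v w
    simp [Matrix.mul_apply, hJ, hcard]
  set s := Real.sqrt (4 * k - 3) with hs
  have hk' : (1 : ℝ) ≤ k := by exact_mod_cast hk
  have hs2 : s ^ 2 = 4 * k - 3 := Real.sq_sqrt (by linarith)
  have hs0 : s ≠ 0 := fun h0 => by rw [h0] at hs2; nlinarith
  set r := (-1 - s) / 2 with hr
  -- `E` is the projection to the eigenspace of `(-1 + s) / 2` off the constants
  set E : Matrix V V ℝ := s⁻¹ • (A - r • 1 + ((r - k) / n) • J) with hE
  have hidem : E * E = E := by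
    have h1 : (A - r • 1 + ((r - k) / n) • J) * (A - r • 1 + ((r - k) / n) • J) =
        s • (A - r • 1 + ((r - k) / n) • J) := by
      simp only [Matrix.add_mul, Matrix.mul_add, Matrix.sub_mul, Matrix.mul_sub, Matrix.smul_mul,
        Matrix.mul_smul, Matrix.mul_one, Matrix.one_mul, hA2, hAJ, hJA, hJJ]
      ext v w
      simp only [Matrix.add_apply, Matrix.sub_apply, Matrix.smul_apply, smul_eq_mul]
      have e1 : s = -1 - 2 * r := by rw [hr]; ring
      have e2 : r ^ 2 + r - ((k : ℝ) - 1) = 0 := by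
        rw [hr]; linear_combination hs2 / 4
      rw [e1]
      field_simp
      linear_combination (J v w - n * (1 : Matrix V V ℝ) v w) * e2 + J v w * hn
    rw [hE, Matrix.smul_mul, Matrix.mul_smul, h1, smul_smul, smul_smul]
    congr 1
    field_simp
  obtain ⟨m, hm⟩ := exists_trace_eq hidem
  refine ⟨m, ?_⟩
  have htA : A.trace = 0 := by simp [Matrix.trace, hA]
  have htJ : J.trace = n := by simp [Matrix.trace, hJ, hcard]
  rw [hE, Matrix.trace_smul, Matrix.trace_add, Matrix.trace_sub, Matrix.trace_smul,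
    Matrix.trace_smul, Matrix.trace_one, htA, htJ, hcard, smul_eq_mul, smul_eq_mul,
    smul_eq_mul, div_mul_cancel₀ _ hn0] at hm
  rw [← hm, hr]
  field_simp
  rw [hn]
  ring

/-- The arithmetic of the multiplicities. -/
theorem degree_mem {k m : ℕ} (hk : 1 ≤ k) (h : 2 * (m : ℝ) * Real.sqrt (4 * k - 3) =
    k ^ 2 * Real.sqrt (4 * k - 3) + ((k : ℝ) ^ 2 - 2 * k)) :
    k = 1 ∨ k = 2 ∨ k = 3 ∨ k = 7 ∨ k = 57 := by
  have hk' : (1 : ℝ) ≤ k := by exact_mod_cast hk
  set b : ℤ := 2 * m - k ^ 2 with hb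
  set a : ℤ := k ^ 2 - 2 * k with ha
  have h1 : (b : ℝ) * Real.sqrt (4 * k - 3) = a := by rw [hb, ha]; push_cast; linarith
  by_cases hb0 : b = 0
  · rw [hb0, Int.cast_zero, zero_mul] at h1
    have h2 : a = 0 := by exact_mod_cast h1.symm
    have h3 : (k : ℤ) * ((k : ℤ) - 2) = 0 := by rw [← h2, ha]; ring
    rcases mul_eq_zero.1 h3 with h4 | h4 <;> omega
  have h2 : b ^ 2 * (4 * k - 3) = a ^ 2 := by
    have h3 : ((b ^ 2 * (4 * k - 3) : ℤ) : ℝ) = ((a ^ 2 : ℤ) : ℝ) := by
      push_cast
      rw [← h1, mul_pow, Real.sq_sqrt (by linarith)]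
    exact_mod_cast h3
  obtain ⟨t, ht⟩ : b ∣ a :=
    (Int.pow_dvd_pow_iff two_ne_zero).1 ⟨4 * k - 3, h2.symm⟩
  have ht2 : t ^ 2 = 4 * (k : ℤ) - 3 := by
    rw [ht, mul_pow] at h2
    exact (mul_left_cancel₀ (pow_ne_zero 2 hb0) h2).symm
  have h15 : t ∣ 15 := by
    refine ⟨t ^ 3 - 2 * t - 16 * b, ?_⟩
    linear_combination -(t ^ 2 + (4 * (k : ℤ) - 3) - 2) * ht2 - 16 * ht + 16 * ha
  have hle : t.natAbs ∣ 15 := Int.natAbs_dvd_natAbs.2 h15
  have hmem : t.natAbs ∈ Nat.divisors 15 := Nat.mem_divisors.2 ⟨hle, by norm_num⟩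
  rw [show Nat.divisors 15 = {1, 3, 5, 15} by decide] at hmem
  simp only [Finset.mem_insert, Finset.mem_singleton] at hmem
  rw [← Int.natAbs_sq] at ht2
  rcases hmem with h5 | h5 | h5 | h5 <;> rw [h5] at ht2 <;> norm_num at ht2 <;> omega

theorem degree_of_isSRGWith (G : SimpleGraph V) [DecidableRel G.Adj] {k : ℕ}
    (h : G.IsSRGWith (k ^ 2 + 1) k 0 1) : k ∈ ({0, 1, 2, 3, 7, 57} : Set ℕ) := by
  rcases Nat.eq_zero_or_pos k with rfl | hk
  · simp
  obtain ⟨m, hm⟩ := exists_multiplicity G hk h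
  rcases degree_mem hk hm with rfl | rfl | rfl | rfl | rfl <;> simp

/-- Diameter two and girth five give the parameters of a Moore graph. -/
theorem isSRGWith_of_girth (G : SimpleGraph V) [DecidableRel G.Adj] [Nonempty V] {k : ℕ}
    (hreg : G.IsRegularOfDegree k) (hdiam : G.ediam ≤ 2) (hgirth : 5 ≤ G.egirth) :
    G.IsSRGWith (k ^ 2 + 1) k 0 1 := by
  have hcyc : ∀ {a} (w : G.Walk a a), w.IsCycle → 5 ≤ w.length := fun w hw => by
    exact_mod_cast hgirth.trans (egirth_le_length hw)
  have htri : ∀ a b c, G.Adj a b → G.Adj b c → G.Adj c a → False := by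
    intro a b c hab hbc hca
    have := hcyc (.cons hab (.cons hbc (.cons hca .nil)))
      (by simp [Walk.isCycle_def, Walk.isTrail_def, hab.ne, hbc.ne, hca.ne, hab.ne',
        hca.ne'])
    simp at this
  have hsq : ∀ a b c d, a ≠ c → b ≠ d → G.Adj a b → G.Adj b c → G.Adj c d → G.Adj d a → False := by
    intro a b c d hac hbd hab hbc hcd hda
    have := hcyc (.cons hab (.cons hbc (.cons hcd (.cons hda .nil))))
      (by simp [Walk.isCycle_def, Walk.isTrail_def, hab.ne, hbc.ne, hcd.ne, hda.ne, hab.ne',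
        hda.ne', hac, hbd, hac.symm])
    simp at this
  have hadj : ∀ v w, G.Adj v w → Fintype.card (G.commonNeighbors v w) = 0 := fun v w ha =>
    Fintype.card_eq_zero_iff.2 ⟨fun ⟨x, hx⟩ => by
      rw [mem_commonNeighbors] at hx
      exact htri v w x ha hx.2 hx.1.symm⟩
  have hnadj : Pairwise fun v w => ¬G.Adj v w → Fintype.card (G.commonNeighbors v w) = 1 := by
    intro v w hne ha
    have hex : (G.commonNeighbors v w).Nonempty := by
      by_contra he
      exact (ediam_le_iff.1 hdiam v w).not_gt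
        (two_lt_edist_iff.2 ⟨hne, ha, Set.not_nonempty_iff_eq_empty.1 he⟩)
    refine Fintype.card_eq_one_iff.2 ⟨⟨_, hex.choose_spec⟩, fun ⟨x, hx⟩ => Subtype.ext ?_⟩
    by_contra hxy
    have hy := hex.choose_spec
    rw [mem_commonNeighbors] at hx hy
    exact hsq v x w hex.choose hne hxy hx.1 hx.2.symm hy.2 hy.1.symm
  refine ⟨?_, hreg, hadj, hnadj⟩
  have h0 : G.IsSRGWith (Fintype.card V) k 0 1 := ⟨rfl, hreg, hadj, hnadj⟩
  have hp := h0.param_eq G Fintype.card_pos
  have hlt : k + 1 ≤ Fintype.card V := by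
    obtain ⟨v⟩ := ‹Nonempty V›
    rw [← hreg v]
    exact Nat.succ_le_of_lt (G.degree_lt_card_verts v)
  rw [Nat.sub_zero, mul_one, Nat.mul_sub_one, ← pow_two] at hp
  have : k ≤ k ^ 2 := Nat.le_self_pow two_ne_zero k
  omega

/-- The bound of Moore. -/
theorem card_le_moore (G : SimpleGraph V) [DecidableRel G.Adj] {k : ℕ}
    (hdeg : ∀ v, G.degree v ≤ k) (hdiam : G.ediam ≤ 2) : Fintype.card V ≤ k ^ 2 + 1 := by
  rcases isEmpty_or_nonempty V with hV | ⟨⟨v⟩⟩
  · simp
  set S := insert v (G.neighborFinset v ∪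
    (G.neighborFinset v).biUnion fun w => (G.neighborFinset w).erase v)
  have hsub : (univ : Finset V) ⊆ S := by
    intro w _
    simp only [S, Finset.mem_insert, Finset.mem_union, Finset.mem_biUnion, Finset.mem_erase,
      mem_neighborFinset]
    by_contra hcon
    push Not at hcon
    refine (ediam_le_iff.1 hdiam v w).not_gt (two_lt_edist_iff.2 ⟨Ne.symm hcon.1, hcon.2.1, ?_⟩)
    rw [Set.eq_empty_iff_forall_notMem]
    intro x hx
    rw [mem_commonNeighbors] at hx
    exact hcon.2.2 x hx.1 hcon.1 hx.2.symm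
  have h1 : #((G.neighborFinset v).biUnion fun w => (G.neighborFinset w).erase v) ≤
      G.degree v * (k - 1) := by
    rw [← card_neighborFinset_eq_degree]
    refine card_biUnion_le_card_mul _ _ _ fun w hw => ?_
    rw [card_erase_of_mem (by rw [mem_neighborFinset] at hw ⊢; exact hw.symm),
      card_neighborFinset_eq_degree]
    have := hdeg w
    omega
  have h2 := (card_le_card hsub).trans (card_insert_le _ _)
  have h3 := card_union_le (G.neighborFinset v)
    ((G.neighborFinset v).biUnion fun w => (G.neighborFinset w).erase v)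
  rw [card_univ] at h2
  rw [card_neighborFinset_eq_degree] at h3
  have h4 := Nat.mul_le_mul_right (k - 1) (hdeg v)
  have h5 := hdeg v
  rw [Nat.mul_sub_one, Nat.mul_sub_one, ← pow_two] at h4
  rw [Nat.mul_sub_one] at h1
  have : k ≤ k ^ 2 := Nat.le_self_pow two_ne_zero k
  omega

/-- The graph of Petersen. -/
def petersen : SimpleGraph (Fin 10) :=
  SimpleGraph.fromRel fun i j =>
    (i.val < 5 ∧ (j.val = (i.val + 1) % 5 ∨ j.val = i.val + 5)) ∨
      (5 ≤ i.val ∧ j.val = 5 + (i.val + 2) % 5)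

instance : DecidableRel petersen.Adj := fun i j => by
  unfold petersen
  simp only [SimpleGraph.fromRel_adj]
  infer_instance

theorem petersen_isSRGWith : petersen.IsSRGWith (3 ^ 2 + 1) 3 0 1 where
  card := by simp
  regular := by unfold SimpleGraph.IsRegularOfDegree; decide
  of_adj := by decide
  of_not_adj := by unfold Pairwise; decide

/-- The pentagon. -/
def pentagon : SimpleGraph (Fin 5) :=
  SimpleGraph.fromRel fun i j => j.val = (i.val + 1) % 5

instance : DecidableRel pentagon.Adj := fun i j => by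
  unfold pentagon
  simp only [SimpleGraph.fromRel_adj]
  infer_instance

theorem pentagon_isSRGWith : pentagon.IsSRGWith (2 ^ 2 + 1) 2 0 1 where
  card := by simp
  regular := by unfold SimpleGraph.IsRegularOfDegree; decide
  of_adj := by decide
  of_not_adj := by unfold Pairwise; decide

end FA.HoffmanSingleton
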